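import Fermat.Agent.S51.RankB.Halving

/-!
# S51, piece E, route B, part B2c: the descent step (claim 1), given the square classes
-/

set_option autoImplicit false

namespace Fermat.Agent.S51

open WeierstrassCurve

lemma rb_four_nsmul_T1 : (4 : ℕ) • T1 = 0 := by
  unfold T1 rb_mk
  exact rb_four_nsmul_of_y_eq_zero _ rfl

/-- points with `x = 36` are killed by `4`. -/
lemma rb_four_nsmul_of_x_eq {Y : ℚ} (h : W15.toAffine.Nonsingular 36 Y) :
    (4 : ℕ) • (Affine.Point.some 36 Y h : G15) = 0 := by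
  have heq := rb_eq_of_nonsingular h
  have hY2 : Y ^ 2 = 32400 := by rw [heq]; norm_num
  have hY : Y ≠ 0 := by
    intro h0
    rw [h0] at hY2
    norm_num at hY2
  obtain ⟨x', y', h', e2, hx'⟩ := rb_two_nsmul_of_ne h hY
  have hx16 : x' = 16 := by
    rw [hx', hY2]; norm_num
  have heq' := rb_eq_of_nonsingular h'
  have hy' : y' = 0 := by
    rw [hx16] at heq'
    have : y' ^ 2 = 0 := by rw [heq']; norm_num
    exact pow_eq_zero_iff (two_ne_zero) |>.mp this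
  have : (4 : ℕ) • (Affine.Point.some 36 Y h : G15) =
      (2 : ℕ) • ((2 : ℕ) • (Affine.Point.some 36 Y h : G15)) := by
    rw [← mul_nsmul]
  rw [this, e2]
  exact (rb_two_nsmul_eq_zero_iff h').mpr hy'

lemma rb_four_nsmul_Q0 : (4 : ℕ) • Q0 = 0 := by
  unfold Q0 rb_mk
  exact rb_four_nsmul_of_x_eq _

/-- class `(1, 5)`. -/
lemma rb_halvable_of_sq_five {X Y : ℚ} (h : W15.toAffine.Nonsingular X Y) (a d : ℚ)
    (ha : X = a ^ 2) (hd : 5 * (X + 9) = d ^ 2) : rb_Halvable (Affine.Point.some X Y h : G15) := by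
  have heq := rb_eq_of_nonsingular h
  by_cases hX36 : X = 36
  · subst hX36
    exact rb_halvable_of_four_nsmul (rb_four_nsmul_of_x_eq h)
  by_cases ha0 : a = 0
  · have hX : X = 0 := by rw [ha, ha0]; ring
    have hY : Y = 0 := by
      rw [hX] at heq
      have : Y ^ 2 = 0 := by rw [heq]; ring
      exact pow_eq_zero_iff (two_ne_zero) |>.mp this
    exact rb_halvable_of_four_nsmul (rb_four_nsmul_of_y_eq_zero h hY)
  have hd0 : d ≠ 0 := by
    intro hd0
    rw [hd0] at hd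
    nlinarith [sq_nonneg a]
  obtain ⟨X₂, Y₂, h₂, s, t, e, hs, ht⟩ := rb_add_Q0 h hX36
  apply rb_halvable_of_add rb_four_nsmul_Q0
  rw [e]
  refine rb_halvable_of_sq h₂ (s / (6 * a)) (t / (3 * d)) ?_ ?_
  · have h6a : (6 * a) ^ 2 ≠ 0 := pow_ne_zero 2 (mul_ne_zero (by norm_num) ha0)
    rw [div_pow, eq_div_iff h6a, ← hs, ha]; ring
  · have h3d : (3 * d) ^ 2 ≠ 0 := pow_ne_zero 2 (mul_ne_zero (by norm_num) hd0)
    rw [div_pow, eq_div_iff h3d, ← ht]
    have : (3 * d) ^ 2 = 45 * (X + 9) := by rw [mul_pow, ← hd]; ring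
    rw [this]; ring

/-- the translate by `T1` of a point with `y ≠ 0`. -/
lemma rb_add_T1_sq {X Y : ℚ} (h : W15.toAffine.Nonsingular X Y) (hY : Y ≠ 0) :
    X ≠ 0 ∧ X + 9 ≠ 0 ∧ -144 / X + 9 = 9 * Y ^ 2 / (X ^ 2 * (X + 9)) := by
  have heq := rb_eq_of_nonsingular h
  have hX : X ≠ 0 := by
    rintro rfl
    apply hY
    have : Y ^ 2 = 0 := by rw [heq]; ring
    exact pow_eq_zero_iff (two_ne_zero) |>.mp this
  have hX9 : X + 9 ≠ 0 := by
    intro h9
    apply hY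
    have : Y ^ 2 = 0 := by rw [heq, h9]; ring
    exact pow_eq_zero_iff (two_ne_zero) |>.mp this
  refine ⟨hX, hX9, ?_⟩
  rw [heq]
  field_simp
  ring

/-- class `(-1, 1)`. -/
lemma rb_halvable_of_neg_sq {X Y : ℚ} (h : W15.toAffine.Nonsingular X Y) (hY : Y ≠ 0) (a b : ℚ)
    (ha : -X = a ^ 2) (hb : X + 9 = b ^ 2) : rb_Halvable (Affine.Point.some X Y h : G15) := by
  obtain ⟨hX, hX9, hkey⟩ := rb_add_T1_sq h hY
  have ha0 : a ≠ 0 := by
    rintro rfl
    apply hX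
    linarith
  have hb0 : b ≠ 0 := by
    rintro rfl
    apply hX9
    rw [hb]; ring
  obtain ⟨Y₂, h₂, e⟩ := rb_add_T1 h hX
  apply rb_halvable_of_add rb_four_nsmul_T1
  rw [e]
  refine rb_halvable_of_sq h₂ (12 / a) (3 * Y / (X * b)) ?_ ?_
  · rw [div_pow, ← ha]
    field_simp
    ring
  · rw [hkey, div_pow, mul_pow, mul_pow, ← hb]
    ring

/-- class `(-1, 5)`. -/
lemma rb_halvable_of_neg_sq_five {X Y : ℚ} (h : W15.toAffine.Nonsingular X Y) (hY : Y ≠ 0)
    (a d : ℚ) (ha : -X = a ^ 2) (hd : 5 * (X + 9) = d ^ 2) :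
    rb_Halvable (Affine.Point.some X Y h : G15) := by
  obtain ⟨hX, hX9, hkey⟩ := rb_add_T1_sq h hY
  have ha0 : a ≠ 0 := by
    rintro rfl
    apply hX
    linarith
  obtain ⟨Y₂, h₂, e⟩ := rb_add_T1 h hX
  apply rb_halvable_of_add rb_four_nsmul_T1
  rw [e]
  refine rb_halvable_of_sq_five h₂ (12 / a) (3 * Y * d / (X * (X + 9))) ?_ ?_
  · rw [div_pow, ← ha]
    field_simp
    ring
  · rw [hkey, div_pow, mul_pow, mul_pow, mul_pow, ← hd]
    field_simp
    norm_num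

/-- (B2c) every rational point is twice a point plus a point killed by `4`,
given the square-class lemma (B1). -/
theorem rb_claim1_of_sqclass
    (hB1 : ∀ X Y : ℚ, Y ^ 2 = X * (X + 9) * (X - 16) → Y ≠ 0 →
      (IsSquare X ∨ IsSquare (-X)) ∧ (IsSquare (X + 9) ∨ IsSquare (5 * (X + 9))))
    (P : G15) : ∃ T P' : G15, P = (2 : ℕ) • P' + T ∧ (4 : ℕ) • T = 0 := by
  change rb_Halvable P
  rcases P with _ | ⟨X, Y, h⟩
  · exact rb_halvable_zero
  by_cases hY : Y = 0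
  · exact rb_halvable_of_four_nsmul (rb_four_nsmul_of_y_eq_zero h hY)
  obtain ⟨h1, h2⟩ := hB1 X Y (rb_eq_of_nonsingular h) hY
  rcases h1 with ⟨a, ha⟩ | ⟨a, ha⟩ <;> rcases h2 with ⟨b, hb⟩ | ⟨b, hb⟩
  · exact rb_halvable_of_sq h a b (by rw [ha]; ring) (by rw [hb]; ring)
  · exact rb_halvable_of_sq_five h a b (by rw [ha]; ring) (by rw [hb]; ring)
  · exact rb_halvable_of_neg_sq h hY a b (by rw [ha]; ring) (by rw [hb]; ring)
  · exact rb_halvable_of_neg_sq_five h hY a b (by rw [ha]; ring) (by rw [hb]; ring)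

end Fermat.Agent.S51
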