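import Fermat.Agent.S51.Basic

/-!
# S51, piece E, route B: common definitions

The curve `W15 : y² = x (x + 9) (x - 16)` over `ℚ`, with the Mathlib group law.
-/

set_option autoImplicit false

namespace Fermat.Agent.S51

open WeierstrassCurve

/-- The curve `y² = x³ - 7x² - 144x = x (x + 9) (x - 16)` over `ℚ`. -/
def W15 : WeierstrassCurve ℚ := ⟨0, -7, 0, -144, 0⟩

@[simp] lemma rb_a₁ : W15.a₁ = 0 := rfl
@[simp] lemma rb_a₂ : W15.a₂ = -7 := rfl
@[simp] lemma rb_a₃ : W15.a₃ = 0 := rfl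
@[simp] lemma rb_a₄ : W15.a₄ = -144 := rfl
@[simp] lemma rb_a₆ : W15.a₆ = 0 := rfl

lemma rb_b₂ : W15.b₂ = -28 := by simp [WeierstrassCurve.b₂]; norm_num
lemma rb_b₄ : W15.b₄ = -288 := by simp [WeierstrassCurve.b₄]; norm_num
lemma rb_b₆ : W15.b₆ = 0 := by simp [WeierstrassCurve.b₆]
lemma rb_b₈ : W15.b₈ = -20736 := by simp [WeierstrassCurve.b₈]; norm_num

lemma rb_Δ : W15.Δ = 207360000 := by
  simp only [WeierstrassCurve.Δ, rb_b₂, rb_b₄, rb_b₆, rb_b₈]; norm_num

instance rb_isElliptic : W15.IsElliptic := ⟨by rw [rb_Δ]; exact isUnit_iff_ne_zero.mpr (by norm_num)⟩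

/-- the group of rational points of `W15`. -/
abbrev G15 : Type := W15.toAffine.Point

lemma rb_equation_iff (x y : ℚ) :
    W15.toAffine.Equation x y ↔ y ^ 2 = x * (x + 9) * (x - 16) := by
  rw [Affine.equation_iff]
  simp only [rb_a₁, rb_a₂, rb_a₃, rb_a₄, rb_a₆]
  constructor <;> intro h <;> linear_combination h

lemma rb_nonsingular_iff (x y : ℚ) :
    W15.toAffine.Nonsingular x y ↔ y ^ 2 = x * (x + 9) * (x - 16) := by
  rw [← rb_equation_iff]
  exact (W15.toAffine.equation_iff_nonsingular).symm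

lemma rb_nonsingular {x y : ℚ} (h : y ^ 2 = x * (x + 9) * (x - 16)) :
    W15.toAffine.Nonsingular x y := (rb_nonsingular_iff x y).mpr h

lemma rb_eq_of_nonsingular {x y : ℚ} (h : W15.toAffine.Nonsingular x y) :
    y ^ 2 = x * (x + 9) * (x - 16) := (rb_nonsingular_iff x y).mp h

lemma rb_dblDen (x : ℚ) : dblDen W15 x = 4 * (x * (x + 9) * (x - 16)) := by
  simp only [dblDen, rb_b₂, rb_b₄, rb_b₆]; ring

lemma rb_dblNum (x : ℚ) : dblNum W15 x = (x ^ 2 + 144) ^ 2 := by
  simp only [dblNum, rb_b₄, rb_b₆, rb_b₈]; ring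

lemma rb_negY (x y : ℚ) : W15.toAffine.negY x y = -y := by
  simp [Affine.negY]

/-- a point of the curve from its equation. -/
def rb_mk (x y : ℚ) (h : y ^ 2 = x * (x + 9) * (x - 16)) : G15 :=
  Affine.Point.some x y (rb_nonsingular h)

/-- the point `(36, 180)` of order 4. -/
def Q0 : G15 := rb_mk 36 180 (by norm_num)

/-- the point `(0, 0)` of order 2. -/
def T1 : G15 := rb_mk 0 0 (by norm_num)

lemma rb_neg_some {x y : ℚ} (h : W15.toAffine.Nonsingular x y) :
    -(Affine.Point.some x y h : G15) =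
      Affine.Point.some x (-y) (by
        have := (Affine.nonsingular_neg (W' := W15.toAffine) x y).mpr h
        rwa [rb_negY] at this) := by
  rw [Affine.Point.neg_some]
  congr 1
  exact rb_negY x y

lemma rb_dblDen_of_eq {x y : ℚ} (h : y ^ 2 = x * (x + 9) * (x - 16)) :
    dblDen W15 x = 4 * y ^ 2 := by
  rw [rb_dblDen, h]

lemma rb_two_nsmul_eq_zero_iff {x y : ℚ} (h : W15.toAffine.Nonsingular x y) :
    (2 : ℕ) • (Affine.Point.some x y h : G15) = 0 ↔ y = 0 := by
  rw [two_nsmul_some_eq_zero_iff W15 h, rb_dblDen_of_eq (rb_eq_of_nonsingular h)]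
  constructor
  · intro h0
    have : y ^ 2 = 0 := by linarith
    exact pow_eq_zero_iff (two_ne_zero) |>.mp this
  · intro h0
    rw [h0]; ring

/-- the duplication formula on `W15`. -/
lemma rb_two_nsmul_of_ne {x y : ℚ} (h : W15.toAffine.Nonsingular x y) (hy : y ≠ 0) :
    ∃ (x' y' : ℚ) (h' : W15.toAffine.Nonsingular x' y'),
      (2 : ℕ) • (Affine.Point.some x y h : G15) = Affine.Point.some x' y' h' ∧
        x' = (x ^ 2 + 144) ^ 2 / (4 * y ^ 2) := by
  have hd : dblDen W15 x ≠ 0 := by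
    rw [rb_dblDen_of_eq (rb_eq_of_nonsingular h)]
    exact mul_ne_zero (by norm_num) (pow_ne_zero 2 hy)
  obtain ⟨x', y', h', e, hx'⟩ := two_nsmul_some_of_dblDen_ne W15 h hd
  refine ⟨x', y', h', e, ?_⟩
  rw [rb_dblNum, rb_dblDen_of_eq (rb_eq_of_nonsingular h)] at hx'
  rw [eq_div_iff (mul_ne_zero (by norm_num) (pow_ne_zero 2 hy))]
  exact hx'

end Fermat.Agent.S51
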