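import Fermat.Agent.S51.RankB.Defs

/-!
# S51, piece E, route B, part B4: the rational 4-torsion of `W15`
-/

set_option autoImplicit false

namespace Fermat.Agent.S51

open WeierstrassCurve

/-- a point with `y = 0` has `x ∈ {0, -9, 16}`. -/
lemma rb_x_of_y_eq_zero {x y : ℚ} (h : y ^ 2 = x * (x + 9) * (x - 16)) (hy : y = 0) :
    x = 0 ∨ x = -9 ∨ x = 16 := by
  rw [hy] at h
  have h0 : x * (x + 9) * (x - 16) = 0 := by rw [← h]; ring
  rcases mul_eq_zero.mp h0 with h1 | h1
  · rcases mul_eq_zero.mp h1 with h2 | h2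
    · exact Or.inl h2
    · exact Or.inr (Or.inl (by linarith))
  · exact Or.inr (Or.inr (by linarith))

/-- (B4) the points killed by 4. -/
theorem rb_claim3 (P : G15) (h4 : (4 : ℕ) • P = 0) :
    P = 0 ∨ ∃ (X Y : ℚ) (h : W15.toAffine.Nonsingular X Y),
      P = Affine.Point.some X Y h ∧ (X = 0 ∨ X = -9 ∨ X = 16 ∨ X = 36 ∨ X = -4) := by
  rcases P with _ | ⟨x, y, h⟩
  · exact Or.inl rfl
  right
  refine ⟨x, y, h, rfl, ?_⟩
  have heq := rb_eq_of_nonsingular h
  by_cases hy : y = 0
  · rcases rb_x_of_y_eq_zero heq hy with h1 | h1 | h1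
    · exact Or.inl h1
    · exact Or.inr (Or.inl h1)
    · exact Or.inr (Or.inr (Or.inl h1))
  obtain ⟨x', y', h', e2, hx'⟩ := rb_two_nsmul_of_ne h hy
  have h4' : (2 : ℕ) • (Affine.Point.some x' y' h' : G15) = 0 := by
    rw [← e2, ← mul_nsmul]; exact h4
  have hy' : y' = 0 := (rb_two_nsmul_eq_zero_iff h').mp h4'
  have heq' := rb_eq_of_nonsingular h'
  have hy2 : (4 * y ^ 2) ≠ 0 := mul_ne_zero (by norm_num) (pow_ne_zero 2 hy)
  have hx'' : x' * (4 * y ^ 2) = (x ^ 2 + 144) ^ 2 := by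
    rw [hx', div_mul_cancel₀ _ hy2]
  rcases rb_x_of_y_eq_zero heq' hy' with h1 | h1 | h1
  · -- x' = 0 : impossible
    exfalso
    rw [h1, zero_mul] at hx''
    have : x ^ 2 + 144 = 0 := by
      have := hx''.symm
      exact pow_eq_zero_iff (two_ne_zero) |>.mp this
    nlinarith [sq_nonneg x]
  · -- x' = -9 : impossible
    exfalso
    rw [h1] at hx''
    have hsq : (x ^ 2 + 18 * x - 144) ^ 2 = 0 := by
      linear_combination (-36 : ℚ) * heq - hx''
    have hq : x ^ 2 + 18 * x - 144 = 0 := pow_eq_zero_iff (two_ne_zero) |>.mp hsq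
    have hfac : (x - 6) * (x + 24) = 0 := by linear_combination hq
    rcases mul_eq_zero.mp hfac with h6 | h24
    · have hx6 : x = 6 := by linarith
      rw [hx6] at heq
      nlinarith [sq_nonneg y]
    · have hx24 : x = -24 := by linarith
      rw [hx24] at heq
      nlinarith [sq_nonneg y]
  · -- x' = 16
    rw [h1] at hx''
    have hsq : (x ^ 2 - 32 * x - 144) ^ 2 = 0 := by
      linear_combination (64 : ℚ) * heq - hx''
    have hq : x ^ 2 - 32 * x - 144 = 0 := pow_eq_zero_iff (two_ne_zero) |>.mp hsq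
    have hfac : (x - 36) * (x + 4) = 0 := by linear_combination hq
    rcases mul_eq_zero.mp hfac with h36 | h4
    · exact Or.inr (Or.inr (Or.inr (Or.inl (by linarith))))
    · exact Or.inr (Or.inr (Or.inr (Or.inr (by linarith))))

end Fermat.Agent.S51
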