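import Fermat.Agent.S51.RankB.Claim1
import Fermat.Agent.S51.RankB.FourTorsion

/-!
# S51, piece E, route B, part B5: the rational points of `W15`, given (B1) and (B3)
-/

set_option autoImplicit false

namespace Fermat.Agent.S51

open WeierstrassCurve

/-- iterating claim 1: `4P` is infinitely `2`-divisible inside `4 • G15`. -/
lemma rb_four_nsmul_divisible
    (hC1 : ∀ P : G15, ∃ T P' : G15, P = (2 : ℕ) • P' + T ∧ (4 : ℕ) • T = 0) :
    ∀ (k : ℕ) (P : G15), ∃ S : G15, (4 : ℕ) • P = (2 ^ k : ℕ) • ((4 : ℕ) • S) := by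
  intro k
  induction k with
  | zero => intro P; exact ⟨P, by simp⟩
  | succ k ih =>
    intro P
    obtain ⟨T, P', e, hT⟩ := hC1 P
    obtain ⟨S, hS⟩ := ih P'
    refine ⟨S, ?_⟩
    rw [e, nsmul_add, hT, add_zero, ← mul_nsmul, mul_comm, mul_nsmul, hS, ← mul_nsmul,
      pow_succ]

/-- (B5) the rational points of `y² = x (x + 9) (x - 16)`, given (B1) and (B3). -/
theorem rb_rational_points_of
    (hB1 : ∀ X Y : ℚ, Y ^ 2 = X * (X + 9) * (X - 16) → Y ≠ 0 →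
      (IsSquare X ∨ IsSquare (-X)) ∧ (IsSquare (X + 9) ∨ IsSquare (5 * (X + 9))))
    (hB3 : ∀ R : G15, (∀ k : ℕ, ∃ S : G15, R = (2 ^ k : ℕ) • ((4 : ℕ) • S)) → R = 0)
    (X Y : ℚ) (h : Y ^ 2 = X * (X + 9) * (X - 16)) :
    X = 0 ∨ X = -9 ∨ X = 16 ∨ X = 36 ∨ X = -4 := by
  have hC1 := rb_claim1_of_sqclass hB1
  have h4 : (4 : ℕ) • rb_mk X Y h = 0 :=
    hB3 _ (fun k => rb_four_nsmul_divisible hC1 k (rb_mk X Y h))
  rcases rb_claim3 _ h4 with h0 | ⟨X', Y', h', e, hX'⟩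
  · exact absurd h0 (Affine.Point.some_ne_zero _)
  · unfold rb_mk at e
    injection e with e1 e2
    rw [e1]; exact hX'

end Fermat.Agent.S51
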