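import Fermat.Agent.S51.RankB.Defs

/-!
# S51, piece E, route B: the halving lemma (B2a)

If `x`, `x + 9`, `x - 16` are all rational squares, then the point `(x, y)` of `W15` is the double
of an explicit rational point.
-/

set_option autoImplicit false

namespace Fermat.Agent.S51

open WeierstrassCurve

/-- **B2a (halving).** -/
theorem rb_halve (a b c : ℚ) (hb : b ^ 2 = a ^ 2 + 9) (hc : c ^ 2 = a ^ 2 - 16)
    (h : W15.toAffine.Nonsingular (a ^ 2) (a * b * c)) :
    ∃ P' : G15, (2 : ℕ) • P' = Affine.Point.some (a ^ 2) (a * b * c) h := by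
  -- the three factors are nonzero
  have hab : a + b ≠ 0 := by
    intro h0
    have : b = -a := by linear_combination h0
    rw [this] at hb
    nlinarith
  have hac : a + c ≠ 0 := by
    intro h0
    have : c = -a := by linear_combination h0
    rw [this] at hc
    nlinarith
  have hbc : b + c ≠ 0 := by
    intro h0
    have : c = -b := by linear_combination h0
    rw [this] at hc
    nlinarith
  set x' : ℚ := (a + b) * (a + c) with hx'
  set y' : ℚ := (a + b) * (a + c) * (b + c) with hy'
  have hx9 : x' + 9 = (a + b) * (b + c) := by rw [hx']; linear_combination -hb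
  have hx16 : x' - 16 = (a + c) * (b + c) := by rw [hx']; linear_combination -hc
  have hy0 : y' ≠ 0 := mul_ne_zero (mul_ne_zero hab hac) hbc
  have heq : y' ^ 2 = x' * (x' + 9) * (x' - 16) := by
    rw [hx9, hx16, hx', hy']; ring
  have hns : W15.toAffine.Nonsingular x' y' := rb_nonsingular heq
  have hyne : y' ≠ W15.toAffine.negY x' y' := by
    rw [rb_negY]
    intro h0
    apply hy0
    linarith
  refine ⟨Affine.Point.some x' y' hns, ?_⟩
  rw [two_nsmul, Affine.Point.add_self_of_Y_ne hyne]
  have hslope : W15.toAffine.slope x' x' y' y' = a + b + c := by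
    rw [Affine.slope_of_Y_ne rfl hyne, rb_negY]
    simp only [rb_a₁, rb_a₂, rb_a₄]
    rw [div_eq_iff (by intro h0; apply hy0; linarith)]
    have e : 3 * x' ^ 2 + 2 * (-7) * x' + -144 - 0 * y'
        = (x' + 9) * (x' - 16) + x' * (x' - 16) + x' * (x' + 9) := by ring
    rw [e, hx9, hx16, hx', hy']
    ring
  have hX : W15.toAffine.addX x' x' (W15.toAffine.slope x' x' y' y') = a ^ 2 := by
    rw [hslope]
    simp only [Affine.addX, rb_a₁, rb_a₂]
    rw [hx']
    linear_combination hb + hc
  have hY : W15.toAffine.addY x' x' y' (W15.toAffine.slope x' x' y' y') = a * b * c := by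
    simp only [Affine.addY, Affine.negAddY, rb_negY, hX]
    rw [hslope, hx', hy']
    ring
  simp only [hX, hY]

end Fermat.Agent.S51
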