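import Fermat.Agent.S51.RankB.Defs
import Fermat.Agent.S51.RankB.Halve

/-!
# S51, piece E, route B, part B2: halving, translations, and the descent step (claim 1)
-/

set_option autoImplicit false

namespace Fermat.Agent.S51

open WeierstrassCurve

/-- `P` is twice a point plus a point killed by `4`. -/
def rb_Halvable (P : G15) : Prop :=
  ∃ T P' : G15, P = (2 : ℕ) • P' + T ∧ (4 : ℕ) • T = 0

lemma rb_halvable_of_four_nsmul {T : G15} (h : (4 : ℕ) • T = 0) : rb_Halvable T :=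
  ⟨T, 0, by simp, h⟩

lemma rb_halvable_zero : rb_Halvable (0 : G15) :=
  rb_halvable_of_four_nsmul (by simp)

lemma rb_halvable_of_two_nsmul {P' : G15} : rb_Halvable ((2 : ℕ) • P') :=
  ⟨0, P', by simp, by simp⟩

lemma rb_halvable_of_add {P S : G15} (hS : (4 : ℕ) • S = 0) (h : rb_Halvable (P + S)) :
    rb_Halvable P := by
  obtain ⟨T, P', e, hT⟩ := h
  refine ⟨T - S, P', ?_, ?_⟩
  · have : P = (P + S) - S := by abel
    rw [this, e]; abel
  · rw [nsmul_sub, hT, hS, sub_zero]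

lemma rb_four_nsmul_of_y_eq_zero {x y : ℚ} (h : W15.toAffine.Nonsingular x y) (hy : y = 0) :
    (4 : ℕ) • (Affine.Point.some x y h : G15) = 0 := by
  have h2 : (2 : ℕ) • (Affine.Point.some x y h : G15) = 0 := (rb_two_nsmul_eq_zero_iff h).mpr hy
  have : (4 : ℕ) • (Affine.Point.some x y h : G15) =
      (2 : ℕ) • ((2 : ℕ) • (Affine.Point.some x y h : G15)) := by
    rw [← mul_nsmul]
  rw [this, h2, nsmul_zero]

/-- a point whose `x` and `x + 9` are rational squares is halvable. -/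
lemma rb_halvable_of_sq {X Y : ℚ} (h : W15.toAffine.Nonsingular X Y) (a b : ℚ)
    (ha : X = a ^ 2) (hb : X + 9 = b ^ 2) : rb_Halvable (Affine.Point.some X Y h : G15) := by
  have heq := rb_eq_of_nonsingular h
  by_cases ha0 : a = 0
  · -- X = 0, so Y = 0
    have hX : X = 0 := by rw [ha, ha0]; ring
    have hY : Y = 0 := by
      rw [hX] at heq
      have : Y ^ 2 = 0 := by rw [heq]; ring
      exact pow_eq_zero_iff (two_ne_zero) |>.mp this
    exact rb_halvable_of_four_nsmul (rb_four_nsmul_of_y_eq_zero h hY)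
  have hb0 : b ≠ 0 := by
    intro hb0
    rw [hb0] at hb
    nlinarith [sq_nonneg a]
  obtain ⟨c, hc⟩ : ∃ c : ℚ, c = Y / (a * b) := ⟨_, rfl⟩
  have hab : a * b ≠ 0 := mul_ne_zero ha0 hb0
  have hY : Y = a * b * c := by rw [hc]; field_simp
  have hc2 : c ^ 2 = a ^ 2 - 16 := by
    have h1 : c ^ 2 * (a ^ 2 * b ^ 2) = (a ^ 2 - 16) * (a ^ 2 * b ^ 2) := by
      have : c ^ 2 * (a ^ 2 * b ^ 2) = Y ^ 2 := by rw [hY]; ring
      rw [this, heq, ← ha, ← hb]; ring
    have h2 : a ^ 2 * b ^ 2 ≠ 0 := by positivity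
    exact mul_right_cancel₀ h2 h1
  have hb2 : b ^ 2 = a ^ 2 + 9 := by rw [← hb, ha]
  subst ha
  subst hY
  obtain ⟨P', hP'⟩ := rb_halve a b c hb2 hc2 h
  rw [← hP']
  exact rb_halvable_of_two_nsmul

/-- (B2b) translation by `T1 = (0, 0)`: the `x`-coordinate. -/
lemma rb_add_T1 {X Y : ℚ} (h : W15.toAffine.Nonsingular X Y) (hX : X ≠ 0) :
    ∃ (Y₂ : ℚ) (h₂ : W15.toAffine.Nonsingular (-144 / X) Y₂),
      (Affine.Point.some X Y h : G15) + T1 = Affine.Point.some (-144 / X) Y₂ h₂ := by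
  have heq := rb_eq_of_nonsingular h
  unfold T1 rb_mk
  rw [Affine.Point.add_of_X_ne hX]
  have hx : W15.toAffine.addX X 0 (W15.toAffine.slope X 0 Y 0) = -144 / X := by
    rw [Affine.slope_of_X_ne hX]
    simp only [Affine.addX, rb_a₁, rb_a₂, sub_zero]
    field_simp
    linear_combination heq
  have hns := Affine.nonsingular_add (W := W15.toAffine) h (rb_nonsingular (x := 0) (y := 0) (by norm_num))
    (fun hxy => hX hxy.left)
  refine ⟨W15.toAffine.addY X 0 Y (W15.toAffine.slope X 0 Y 0), by rw [← hx]; exact hns, ?_⟩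
  congr 1

/-- (B2b) translation by `Q0 = (36, 180)`: the square classes. -/
lemma rb_add_Q0 {X Y : ℚ} (h : W15.toAffine.Nonsingular X Y) (hX : X ≠ 36) :
    ∃ (X₂ Y₂ : ℚ) (h₂ : W15.toAffine.Nonsingular X₂ Y₂) (s t : ℚ),
      (Affine.Point.some X Y h : G15) + Q0 = Affine.Point.some X₂ Y₂ h₂ ∧
        X₂ * X * 36 = s ^ 2 ∧ (X₂ + 9) * (X + 9) * 45 = t ^ 2 := by
  have heq := rb_eq_of_nonsingular h
  have hD : X - 36 ≠ 0 := sub_ne_zero.mpr hX
  unfold Q0 rb_mk
  rw [Affine.Point.add_of_X_ne hX]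
  refine ⟨_, _, _, Y - (Y - 180) / (X - 36) * X,
    Y - (Y - 180) / (X - 36) * X - 9 * ((Y - 180) / (X - 36)), rfl, ?_, ?_⟩
  · rw [Affine.slope_of_X_ne hX]
    simp only [Affine.addX, rb_a₁, rb_a₂]
    field_simp
    linear_combination (36 * X - 1296) * heq
  · rw [Affine.slope_of_X_ne hX]
    simp only [Affine.addX, rb_a₁, rb_a₂]
    field_simp
    linear_combination (45 * X - 1620) * heq

end Fermat.Agent.S51
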