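import Mathlib

set_option autoImplicit false

namespace Fermat.Agent.S51

/-- a positive natural number all of whose `p`-adic valuations are even is a square -/
theorem rb_isSquare_of_even_padicValNat {n : ℕ} (hn : n ≠ 0)
    (h : ∀ ℓ : ℕ, ℓ.Prime → Even (padicValNat ℓ n)) : IsSquare n := by
  obtain ⟨a, b, hab, hsf⟩ := Nat.sq_mul_squarefree n
  have ha0 : a ≠ 0 := by
    rintro rfl
    exact hn (by rw [← hab]; ring)
  have hb0 : b ≠ 0 := by
    rintro rfl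
    exact hn (by rw [← hab]; ring)
  have ha1 : a = 1 := by
    by_contra hne
    obtain ⟨ℓ, hℓ, hdvd⟩ := Nat.exists_prime_and_dvd hne
    have : Fact ℓ.Prime := ⟨hℓ⟩
    have h1 : padicValNat ℓ a = 1 := by
      rw [← Nat.factorization_def _ hℓ]
      exact Nat.factorization_eq_one_of_squarefree hsf hℓ hdvd
    have h2 : padicValNat ℓ n = 2 * padicValNat ℓ b + 1 := by
      rw [← hab, padicValNat.mul (pow_ne_zero 2 hb0) ha0, padicValNat.pow, h1]
    have := h ℓ hℓ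
    rw [h2] at this
    exact (Nat.not_even_iff_odd.mpr ⟨_, rfl⟩) this
  rw [ha1, mul_one] at hab
  exact ⟨b, by rw [← hab]; ring⟩

/-- an integer all of whose valuations are even is plus or minus a square -/
theorem rb_isSquare_or_isSquare_neg_of_even {p : ℤ} (hp : p ≠ 0)
    (h : ∀ ℓ : ℕ, ℓ.Prime → Even (padicValInt ℓ p)) : IsSquare p ∨ IsSquare (-p) := by
  have h1 : IsSquare p.natAbs :=
    rb_isSquare_of_even_padicValNat (Int.natAbs_ne_zero.mpr hp) (fun ℓ hℓ => h ℓ hℓ)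
  obtain ⟨b, hb⟩ := h1
  rcases Int.natAbs_eq p with h2 | h2
  · left
    exact ⟨b, by rw [h2, hb]; push_cast; ring⟩
  · right
    exact ⟨b, by rw [h2, hb]; push_cast; ring⟩

/-- mod 3 obstruction (kills the classes with `3 ∣ d`) -/
theorem rb_mod3_obstruction : ∀ a b w : ZMod 3, a ≠ 0 → b ≠ 0 →
    a * (a + 3 * b ^ 2) * (3 * a - 16 * b ^ 2) ≠ w ^ 2 := by decide

/-- mod 8 obstruction (kills `v₂(p) = 1`) -/
theorem rb_mod8_obstruction_one : ∀ a b w : ZMod 8, a * 4 = 4 → b * 4 = 4 →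
    a * (2 * a + 9 * b ^ 2) * (a - 8 * b ^ 2) ≠ w ^ 2 := by decide

/-- mod 8 obstruction (kills `v₂(p) = 3`) -/
theorem rb_mod8_obstruction_three : ∀ a b w : ZMod 8, a * 4 = 4 → b * 4 = 4 →
    a * (8 * a + 9 * b ^ 2) * (a - 2 * b ^ 2) ≠ w ^ 2 := by decide

theorem rb_zmod8_mul_four_of_odd {a : ℤ} (ha : ¬ (2 : ℤ) ∣ a) : ((a : ZMod 8)) * 4 = 4 := by
  obtain ⟨k, hk⟩ : ∃ k, a = 2 * k + 1 := by
    rcases Int.even_or_odd' a with ⟨k, hk | hk⟩
    · exact absurd ⟨k, hk⟩ ha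
    · exact ⟨k, hk⟩
  rw [hk]
  push_cast
  have h8 : (8 : ZMod 8) = 0 := by decide
  calc (2 * (k : ZMod 8) + 1) * 4 = 8 * (k : ZMod 8) + 4 := by ring
    _ = 4 := by rw [h8, zero_mul, zero_add]

theorem rb_zmod3_ne_zero_of_not_dvd {a : ℤ} (ha : ¬ (3 : ℤ) ∣ a) : ((a : ZMod 3)) ≠ 0 := by
  intro h
  apply ha
  have := (ZMod.intCast_zmod_eq_zero_iff_dvd a 3).mp h
  exact_mod_cast this

section Key

variable {p t W : ℤ}

/-- valuation bookkeeping: the sum of the three valuations is even -/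
theorem rb_val_sum_eq (ℓ : ℕ) [Fact ℓ.Prime] (hW : W ≠ 0)
    (h : p * (p + 9 * t ^ 2) * (p - 16 * t ^ 2) = W ^ 2) :
    padicValInt ℓ p + padicValInt ℓ (p + 9 * t ^ 2) + padicValInt ℓ (p - 16 * t ^ 2) =
      2 * padicValInt ℓ W := by
  have hW2 : W ^ 2 ≠ 0 := pow_ne_zero 2 hW
  rw [← h] at hW2
  have hA : p ≠ 0 := fun h0 => hW2 (by rw [h0]; ring)
  have hB : p + 9 * t ^ 2 ≠ 0 := fun h0 => hW2 (by rw [h0]; ring)
  have hC : p - 16 * t ^ 2 ≠ 0 := fun h0 => hW2 (by rw [h0]; ring)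
  have h1 : padicValInt ℓ (p * (p + 9 * t ^ 2) * (p - 16 * t ^ 2)) =
      padicValInt ℓ p + padicValInt ℓ (p + 9 * t ^ 2) + padicValInt ℓ (p - 16 * t ^ 2) := by
    rw [padicValInt.mul (mul_ne_zero hA hB) hC, padicValInt.mul hA hB]
  have h2 : padicValInt ℓ (W ^ 2) = 2 * padicValInt ℓ W := by
    rw [sq, padicValInt.mul hW hW]; ring
  rw [← h1, h, h2]

theorem rb_val_eq_of_dvd_of_not_dvd (ℓ : ℕ) [Fact ℓ.Prime] {a : ℤ} (ha : a ≠ 0) (n : ℕ)
    (h1 : (ℓ : ℤ) ^ n ∣ a) (h2 : ¬ (ℓ : ℤ) ^ (n + 1) ∣ a) : padicValInt ℓ a = n := by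
  have h3 := (padicValInt_dvd_iff n a).mp h1
  have h4 : ¬ (n + 1 ≤ padicValInt ℓ a) := fun hh => h2 ((padicValInt_dvd_iff (n + 1) a).mpr (Or.inr hh))
  rcases h3 with h3 | h3
  · exact absurd h3 ha
  · omega

end Key

section Key2

variable {p t W : ℤ}

/-- primes other than 2, 3 -/
theorem rb_even_val_generic (ℓ : ℕ) [hℓ : Fact ℓ.Prime] (h2 : ℓ ≠ 2) (h3 : ℓ ≠ 3)
    (hcop : IsCoprime p t) (hW : W ≠ 0)
    (h : p * (p + 9 * t ^ 2) * (p - 16 * t ^ 2) = W ^ 2) : Even (padicValInt ℓ p) := by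
  have hsum := rb_val_sum_eq ℓ hW h
  have hprime : Prime (ℓ : ℤ) := Nat.prime_iff_prime_int.mp hℓ.out
  by_cases hp : (ℓ : ℤ) ∣ p
  · have ht : ¬ (ℓ : ℤ) ∣ t := fun ht => hprime.not_isUnit (hcop.isUnit_of_dvd' hp ht)
    have hB : ¬ (ℓ : ℤ) ∣ p + 9 * t ^ 2 := by
      intro hB
      have h9 : (ℓ : ℤ) ∣ 9 * t ^ 2 := (dvd_add_right hp).mp hB
      rcases hprime.dvd_or_dvd h9 with h9 | h9
      · have : (ℓ : ℤ) ∣ 3 ^ 2 := by norm_num; exact h9
        have h3' := hprime.dvd_of_dvd_pow this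
        have : ℓ ∣ 3 := by exact_mod_cast h3'
        exact h3 ((Nat.prime_dvd_prime_iff_eq hℓ.out Nat.prime_three).mp this)
      · exact ht (hprime.dvd_of_dvd_pow h9)
    have hC : ¬ (ℓ : ℤ) ∣ p - 16 * t ^ 2 := by
      intro hC
      have h16 : (ℓ : ℤ) ∣ 16 * t ^ 2 := (dvd_sub_right hp).mp hC
      rcases hprime.dvd_or_dvd h16 with h16 | h16
      · have : (ℓ : ℤ) ∣ 2 ^ 4 := by norm_num; exact h16
        have h2' := hprime.dvd_of_dvd_pow this
        have : ℓ ∣ 2 := by exact_mod_cast h2'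
        exact h2 ((Nat.prime_dvd_prime_iff_eq hℓ.out Nat.prime_two).mp this)
      · exact ht (hprime.dvd_of_dvd_pow h16)
    rw [padicValInt.eq_zero_of_not_dvd hB, padicValInt.eq_zero_of_not_dvd hC] at hsum
    exact ⟨padicValInt ℓ W, by omega⟩
  · rw [padicValInt.eq_zero_of_not_dvd hp]
    exact Even.zero

end Key2

section Key3

variable {p t W : ℤ}

theorem rb_ne_zero_of_eq (hW : W ≠ 0) (h : p * (p + 9 * t ^ 2) * (p - 16 * t ^ 2) = W ^ 2) :
    p ≠ 0 ∧ p + 9 * t ^ 2 ≠ 0 ∧ p - 16 * t ^ 2 ≠ 0 := by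
  have hW2 : W ^ 2 ≠ 0 := pow_ne_zero 2 hW
  rw [← h] at hW2
  exact ⟨fun h0 => hW2 (by rw [h0]; ring), fun h0 => hW2 (by rw [h0]; ring),
    fun h0 => hW2 (by rw [h0]; ring)⟩

theorem rb_even_val_three (hcop : IsCoprime p t) (hW : W ≠ 0)
    (h : p * (p + 9 * t ^ 2) * (p - 16 * t ^ 2) = W ^ 2) : Even (padicValInt 3 p) := by
  have : Fact (Nat.Prime 3) := ⟨Nat.prime_three⟩
  have hsum := rb_val_sum_eq 3 hW h
  obtain ⟨hp0, hB0, hC0⟩ := rb_ne_zero_of_eq hW h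
  have hprime : Prime (3 : ℤ) := Int.prime_three
  by_cases h3 : (3 : ℤ) ∣ p
  · have ht : ¬ (3 : ℤ) ∣ t := fun ht => hprime.not_isUnit (hcop.isUnit_of_dvd' h3 ht)
    have hC : ¬ (3 : ℤ) ∣ p - 16 * t ^ 2 := by
      intro hC
      have h16 : (3 : ℤ) ∣ 16 * t ^ 2 := (dvd_sub_right h3).mp hC
      rcases hprime.dvd_or_dvd h16 with h16 | h16
      · norm_num at h16
      · exact ht (hprime.dvd_of_dvd_pow h16)
    by_cases h9 : (9 : ℤ) ∣ p
    · by_cases h27 : (27 : ℤ) ∣ p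
      · have hB9 : ((3 : ℕ) : ℤ) ^ 2 ∣ p + 9 * t ^ 2 := by
          obtain ⟨k, hk⟩ := h9
          exact ⟨k + t ^ 2, by rw [hk]; push_cast; ring⟩
        have hB27 : ¬ ((3 : ℕ) : ℤ) ^ (2 + 1) ∣ p + 9 * t ^ 2 := by
          intro hB
          have hB' : (27 : ℤ) ∣ p + 9 * t ^ 2 := by
            have : (((3 : ℕ) : ℤ)) ^ (2 + 1) = 27 := by norm_num
            rwa [this] at hB
          have h1 : (27 : ℤ) ∣ 9 * t ^ 2 := (dvd_add_right h27).mp hB'
          have h2 : (3 : ℤ) ∣ t ^ 2 := by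
            obtain ⟨k, hk⟩ := h1
            exact ⟨k, by linarith⟩
          exact ht (hprime.dvd_of_dvd_pow h2)
        have vB := rb_val_eq_of_dvd_of_not_dvd 3 hB0 2 hB9 hB27
        have vC : padicValInt 3 (p - 16 * t ^ 2) = 0 :=
          padicValInt.eq_zero_of_not_dvd (by exact_mod_cast hC)
        rw [vB, vC] at hsum
        exact ⟨padicValInt 3 W - 1, by omega⟩
      · have vA := rb_val_eq_of_dvd_of_not_dvd 3 hp0 2 (by norm_num; exact h9) (by norm_num; exact h27)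
        rw [vA]
        exact ⟨1, rfl⟩
    · exfalso
      obtain ⟨p₁, rfl⟩ := h3
      have hp₁ : ¬ (3 : ℤ) ∣ p₁ := fun ⟨k, hk⟩ => h9 ⟨k, by rw [hk]; ring⟩
      have h9W : (3 : ℤ) ^ 2 ∣ W ^ 2 :=
        ⟨p₁ * (p₁ + 3 * t ^ 2) * (3 * p₁ - 16 * t ^ 2), by rw [← h]; ring⟩
      have h3W : (3 : ℤ) ∣ W := (Int.pow_dvd_pow_iff two_ne_zero).mp h9W
      obtain ⟨W₁, rfl⟩ := h3W
      have h' : p₁ * (p₁ + 3 * t ^ 2) * (3 * p₁ - 16 * t ^ 2) = W₁ ^ 2 := by
        have : (9 : ℤ) * (p₁ * (p₁ + 3 * t ^ 2) * (3 * p₁ - 16 * t ^ 2)) = 9 * W₁ ^ 2 := by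
          linear_combination h
        exact mul_left_cancel₀ (by norm_num) this
      have hc := congrArg (Int.cast : ℤ → ZMod 3) h'
      push_cast at hc
      exact rb_mod3_obstruction _ _ _ (rb_zmod3_ne_zero_of_not_dvd hp₁) (rb_zmod3_ne_zero_of_not_dvd ht) hc
  · rw [padicValInt.eq_zero_of_not_dvd (by exact_mod_cast h3)]
    exact Even.zero

end Key3

section Key4

variable {p t W : ℤ}

theorem rb_even_val_two (hcop : IsCoprime p t) (hW : W ≠ 0)
    (h : p * (p + 9 * t ^ 2) * (p - 16 * t ^ 2) = W ^ 2) : Even (padicValInt 2 p) := by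
  have : Fact (Nat.Prime 2) := ⟨Nat.prime_two⟩
  have hsum := rb_val_sum_eq 2 hW h
  obtain ⟨hp0, hB0, hC0⟩ := rb_ne_zero_of_eq hW h
  have hprime : Prime (2 : ℤ) := Int.prime_two
  by_cases h2 : (2 : ℤ) ∣ p
  · have ht : ¬ (2 : ℤ) ∣ t := fun ht => hprime.not_isUnit (hcop.isUnit_of_dvd' h2 ht)
    have hB : ¬ (2 : ℤ) ∣ p + 9 * t ^ 2 := by
      intro hB
      have h9 : (2 : ℤ) ∣ 9 * t ^ 2 := (dvd_add_right h2).mp hB
      rcases hprime.dvd_or_dvd h9 with h9 | h9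
      · norm_num at h9
      · exact ht (hprime.dvd_of_dvd_pow h9)
    have vB : padicValInt 2 (p + 9 * t ^ 2) = 0 :=
      padicValInt.eq_zero_of_not_dvd (by exact_mod_cast hB)
    by_cases h4 : (4 : ℤ) ∣ p
    · by_cases h8 : (8 : ℤ) ∣ p
      · by_cases h16 : (16 : ℤ) ∣ p
        · by_cases h32 : (32 : ℤ) ∣ p
          · have hC16 : ((2 : ℕ) : ℤ) ^ 4 ∣ p - 16 * t ^ 2 := by
              obtain ⟨k, hk⟩ := h16
              exact ⟨k - t ^ 2, by rw [hk]; push_cast; ring⟩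
            have hC32 : ¬ ((2 : ℕ) : ℤ) ^ (4 + 1) ∣ p - 16 * t ^ 2 := by
              intro hC
              have hC' : (32 : ℤ) ∣ p - 16 * t ^ 2 := by
                have : (((2 : ℕ) : ℤ)) ^ (4 + 1) = 32 := by norm_num
                rwa [this] at hC
              have h1 : (32 : ℤ) ∣ 16 * t ^ 2 := (dvd_sub_right h32).mp hC'
              have h2' : (2 : ℤ) ∣ t ^ 2 := by
                obtain ⟨k, hk⟩ := h1
                exact ⟨k, by linarith⟩
              exact ht (hprime.dvd_of_dvd_pow h2')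
            have vC := rb_val_eq_of_dvd_of_not_dvd 2 hC0 4 hC16 hC32
            rw [vB, vC] at hsum
            exact ⟨padicValInt 2 W - 2, by omega⟩
          · have vA := rb_val_eq_of_dvd_of_not_dvd 2 hp0 4 (by norm_num; exact h16)
              (by norm_num; exact h32)
            rw [vA]
            exact ⟨2, rfl⟩
        · exfalso
          obtain ⟨p₁, rfl⟩ := h8
          have hp₁ : ¬ (2 : ℤ) ∣ p₁ := fun ⟨k, hk⟩ => h16 ⟨k, by rw [hk]; ring⟩
          have h8W : (8 : ℤ) ^ 2 ∣ W ^ 2 :=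
            ⟨p₁ * (8 * p₁ + 9 * t ^ 2) * (p₁ - 2 * t ^ 2), by rw [← h]; ring⟩
          have h8W' : (8 : ℤ) ∣ W := (Int.pow_dvd_pow_iff two_ne_zero).mp h8W
          obtain ⟨W₁, rfl⟩ := h8W'
          have h' : p₁ * (8 * p₁ + 9 * t ^ 2) * (p₁ - 2 * t ^ 2) = W₁ ^ 2 := by
            have : (64 : ℤ) * (p₁ * (8 * p₁ + 9 * t ^ 2) * (p₁ - 2 * t ^ 2)) = 64 * W₁ ^ 2 := by
              linear_combination h
            exact mul_left_cancel₀ (by norm_num) this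
          have hc := congrArg (Int.cast : ℤ → ZMod 8) h'
          push_cast at hc
          exact rb_mod8_obstruction_three _ _ _ (rb_zmod8_mul_four_of_odd hp₁)
            (rb_zmod8_mul_four_of_odd ht) hc
      · have vA := rb_val_eq_of_dvd_of_not_dvd 2 hp0 2 (by norm_num; exact h4) (by norm_num; exact h8)
        rw [vA]
        exact ⟨1, rfl⟩
    · exfalso
      obtain ⟨p₁, rfl⟩ := h2
      have hp₁ : ¬ (2 : ℤ) ∣ p₁ := fun ⟨k, hk⟩ => h4 ⟨k, by rw [hk]; ring⟩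
      have h2W : (2 : ℤ) ^ 2 ∣ W ^ 2 :=
        ⟨p₁ * (2 * p₁ + 9 * t ^ 2) * (p₁ - 8 * t ^ 2), by rw [← h]; ring⟩
      have h2W' : (2 : ℤ) ∣ W := (Int.pow_dvd_pow_iff two_ne_zero).mp h2W
      obtain ⟨W₁, rfl⟩ := h2W'
      have h' : p₁ * (2 * p₁ + 9 * t ^ 2) * (p₁ - 8 * t ^ 2) = W₁ ^ 2 := by
        have : (4 : ℤ) * (p₁ * (2 * p₁ + 9 * t ^ 2) * (p₁ - 8 * t ^ 2)) = 4 * W₁ ^ 2 := by
          linear_combination h
        exact mul_left_cancel₀ (by norm_num) this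
      have hc := congrArg (Int.cast : ℤ → ZMod 8) h'
      push_cast at hc
      exact rb_mod8_obstruction_one _ _ _ (rb_zmod8_mul_four_of_odd hp₁)
        (rb_zmod8_mul_four_of_odd ht) hc
  · rw [padicValInt.eq_zero_of_not_dvd (by exact_mod_cast h2)]
    exact Even.zero

/-- the integer form of the square class lemma -/
theorem rb_isSquare_or_isSquare_neg_of_eq (hcop : IsCoprime p t) (hW : W ≠ 0)
    (h : p * (p + 9 * t ^ 2) * (p - 16 * t ^ 2) = W ^ 2) : IsSquare p ∨ IsSquare (-p) := by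
  refine rb_isSquare_or_isSquare_neg_of_even (rb_ne_zero_of_eq hW h).1 ?_
  intro ℓ hℓ
  by_cases h2 : ℓ = 2
  · subst h2; exact rb_even_val_two hcop hW h
  by_cases h3 : ℓ = 3
  · subst h3; exact rb_even_val_three hcop hW h
  have : Fact ℓ.Prime := ⟨hℓ⟩
  exact rb_even_val_generic ℓ h2 h3 hcop hW h

end Key4

/-! ### The second factor `X + 9` -/

/-- a nonzero natural number all of whose valuations away from `5` are even is a square or
five times a square -/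
theorem rb_isSquare_or_five_nat {n : ℕ} (hn : n ≠ 0)
    (h : ∀ ℓ : ℕ, ℓ.Prime → ℓ ≠ 5 → Even (padicValNat ℓ n)) :
    IsSquare n ∨ IsSquare (5 * n) := by
  by_cases h5 : Even (padicValNat 5 n)
  · left
    refine rb_isSquare_of_even_padicValNat hn ?_
    intro ℓ hℓ
    by_cases hℓ5 : ℓ = 5
    · subst hℓ5; exact h5
    · exact h ℓ hℓ hℓ5
  · right
    refine rb_isSquare_of_even_padicValNat (by omega) ?_
    intro ℓ hℓ
    have : Fact ℓ.Prime := ⟨hℓ⟩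
    rw [padicValNat.mul (by norm_num) hn]
    by_cases hℓ5 : ℓ = 5
    · subst hℓ5
      rw [padicValNat_self]
      exact Odd.add_odd odd_one (Nat.not_even_iff_odd.mp h5)
    · have : Fact (Nat.Prime 5) := ⟨by norm_num⟩
      rw [padicValNat_primes hℓ5, zero_add]
      exact h ℓ hℓ hℓ5

theorem rb_isSquare_or_five_int {u : ℤ} (hu : 0 < u)
    (h : ∀ ℓ : ℕ, ℓ.Prime → ℓ ≠ 5 → Even (padicValInt ℓ u)) :
    IsSquare u ∨ IsSquare (5 * u) := by
  have hu' : u = (u.natAbs : ℤ) := (Int.natAbs_of_nonneg hu.le).symm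
  have h1 := rb_isSquare_or_five_nat (n := u.natAbs) (Int.natAbs_ne_zero.mpr hu.ne')
    (fun ℓ hℓ h5 => h ℓ hℓ h5)
  rcases h1 with ⟨b, hb⟩ | ⟨b, hb⟩
  · left
    refine ⟨(b : ℤ), ?_⟩
    rw [hu']
    exact_mod_cast hb
  · right
    refine ⟨(b : ℤ), ?_⟩
    rw [hu']
    exact_mod_cast hb

/-- mod 3 obstruction for the second factor -/
theorem rb_mod3_obstruction_B : ∀ a b w : ZMod 3, a ≠ 0 → b ≠ 0 →
    (a - 3 * b ^ 2) * a * (3 * a - 25 * b ^ 2) ≠ w ^ 2 := by decide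

section KeyB

variable {p t W : ℤ}

theorem rb_B_pos (hW : W ≠ 0) (h : p * (p + 9 * t ^ 2) * (p - 16 * t ^ 2) = W ^ 2) :
    0 < p + 9 * t ^ 2 := by
  obtain ⟨hp0, hB0, hC0⟩ := rb_ne_zero_of_eq hW h
  by_contra hneg
  have hB : p + 9 * t ^ 2 < 0 := lt_of_le_of_ne (not_lt.mp hneg) hB0
  have ht2 : 0 ≤ t ^ 2 := sq_nonneg t
  have hp : p < 0 := by linarith
  have hC : p - 16 * t ^ 2 < 0 := by linarith
  have h1 : 0 < p * (p + 9 * t ^ 2) := mul_pos_of_neg_of_neg hp hB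
  have h2 : p * (p + 9 * t ^ 2) * (p - 16 * t ^ 2) < 0 := mul_neg_of_pos_of_neg h1 hC
  have h3 : 0 ≤ W ^ 2 := sq_nonneg W
  linarith

/-- primes other than 3, 5 -/
theorem rb_even_valB_generic (ℓ : ℕ) [hℓ : Fact ℓ.Prime] (h3 : ℓ ≠ 3) (h5 : ℓ ≠ 5)
    (hcop : IsCoprime p t) (hW : W ≠ 0)
    (h : p * (p + 9 * t ^ 2) * (p - 16 * t ^ 2) = W ^ 2) :
    Even (padicValInt ℓ (p + 9 * t ^ 2)) := by
  have hsum := rb_val_sum_eq ℓ hW h
  have hprime : Prime (ℓ : ℤ) := Nat.prime_iff_prime_int.mp hℓ.out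
  by_cases hB : (ℓ : ℤ) ∣ p + 9 * t ^ 2
  · have ht : ¬ (ℓ : ℤ) ∣ t := by
      intro ht
      have hp : (ℓ : ℤ) ∣ p := by
        have : (ℓ : ℤ) ∣ 9 * t ^ 2 := Dvd.dvd.mul_left (dvd_pow ht two_ne_zero) 9
        exact (dvd_add_left this).mp hB
      exact hprime.not_isUnit (hcop.isUnit_of_dvd' hp ht)
    have hp : ¬ (ℓ : ℤ) ∣ p := by
      intro hp
      have h9 : (ℓ : ℤ) ∣ 9 * t ^ 2 := (dvd_add_right hp).mp hB
      rcases hprime.dvd_or_dvd h9 with h9 | h9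
      · have : (ℓ : ℤ) ∣ 3 ^ 2 := by norm_num; exact h9
        have h3' := hprime.dvd_of_dvd_pow this
        have : ℓ ∣ 3 := by exact_mod_cast h3'
        exact h3 ((Nat.prime_dvd_prime_iff_eq hℓ.out Nat.prime_three).mp this)
      · exact ht (hprime.dvd_of_dvd_pow h9)
    have hC : ¬ (ℓ : ℤ) ∣ p - 16 * t ^ 2 := by
      intro hC
      have h25 : (ℓ : ℤ) ∣ 25 * t ^ 2 := by
        have := dvd_sub hB hC
        have e : p + 9 * t ^ 2 - (p - 16 * t ^ 2) = 25 * t ^ 2 := by ring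
        rwa [e] at this
      rcases hprime.dvd_or_dvd h25 with h25 | h25
      · have : (ℓ : ℤ) ∣ 5 ^ 2 := by norm_num; exact h25
        have h5' := hprime.dvd_of_dvd_pow this
        have : ℓ ∣ 5 := by exact_mod_cast h5'
        exact h5 ((Nat.prime_dvd_prime_iff_eq hℓ.out (by norm_num)).mp this)
      · exact ht (hprime.dvd_of_dvd_pow h25)
    rw [padicValInt.eq_zero_of_not_dvd hp, padicValInt.eq_zero_of_not_dvd hC] at hsum
    exact ⟨padicValInt ℓ W, by omega⟩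
  · rw [padicValInt.eq_zero_of_not_dvd hB]
    exact Even.zero

theorem rb_even_valB_three (hcop : IsCoprime p t) (hW : W ≠ 0)
    (h : p * (p + 9 * t ^ 2) * (p - 16 * t ^ 2) = W ^ 2) :
    Even (padicValInt 3 (p + 9 * t ^ 2)) := by
  have : Fact (Nat.Prime 3) := ⟨Nat.prime_three⟩
  have hsum := rb_val_sum_eq 3 hW h
  obtain ⟨hp0, hB0, hC0⟩ := rb_ne_zero_of_eq hW h
  have hprime : Prime (3 : ℤ) := Int.prime_three
  by_cases h3B : (3 : ℤ) ∣ p + 9 * t ^ 2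
  · have h3 : (3 : ℤ) ∣ p := by
      have : (3 : ℤ) ∣ 9 * t ^ 2 := ⟨3 * t ^ 2, by ring⟩
      exact (dvd_add_left this).mp h3B
    have ht : ¬ (3 : ℤ) ∣ t := fun ht => hprime.not_isUnit (hcop.isUnit_of_dvd' h3 ht)
    have hC : ¬ (3 : ℤ) ∣ p - 16 * t ^ 2 := by
      intro hC
      have h16 : (3 : ℤ) ∣ 16 * t ^ 2 := (dvd_sub_right h3).mp hC
      rcases hprime.dvd_or_dvd h16 with h16 | h16
      · norm_num at h16
      · exact ht (hprime.dvd_of_dvd_pow h16)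
    by_cases h9B : (9 : ℤ) ∣ p + 9 * t ^ 2
    · by_cases h27B : (27 : ℤ) ∣ p + 9 * t ^ 2
      · have hp9 : ((3 : ℕ) : ℤ) ^ 2 ∣ p := by
          obtain ⟨k, hk⟩ := h9B
          exact ⟨k - t ^ 2, by push_cast; linarith⟩
        have hp27 : ¬ ((3 : ℕ) : ℤ) ^ (2 + 1) ∣ p := by
          intro hp
          have hp' : (27 : ℤ) ∣ p := by
            have : (((3 : ℕ) : ℤ)) ^ (2 + 1) = 27 := by norm_num
            rwa [this] at hp
          have h1 : (27 : ℤ) ∣ 9 * t ^ 2 := (dvd_add_right hp').mp h27B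
          have h2 : (3 : ℤ) ∣ t ^ 2 := by
            obtain ⟨k, hk⟩ := h1
            exact ⟨k, by linarith⟩
          exact ht (hprime.dvd_of_dvd_pow h2)
        have vA := rb_val_eq_of_dvd_of_not_dvd 3 hp0 2 hp9 hp27
        have vC : padicValInt 3 (p - 16 * t ^ 2) = 0 :=
          padicValInt.eq_zero_of_not_dvd (by exact_mod_cast hC)
        rw [vA, vC] at hsum
        exact ⟨padicValInt 3 W - 1, by omega⟩
      · have e9 : (((3 : ℕ) : ℤ)) ^ 2 = 9 := by norm_num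
        have e27 : (((3 : ℕ) : ℤ)) ^ (2 + 1) = 27 := by norm_num
        have vB := rb_val_eq_of_dvd_of_not_dvd 3 hB0 2 (by rw [e9]; exact h9B)
          (by rw [e27]; exact h27B)
        rw [vB]
        exact ⟨1, rfl⟩
    · exfalso
      obtain ⟨B₁, hB₁⟩ := h3B
      have hp : p = 3 * B₁ - 9 * t ^ 2 := by linarith
      subst hp
      have hB₁' : ¬ (3 : ℤ) ∣ B₁ := fun ⟨k, hk⟩ => h9B ⟨k, by rw [hk]; ring⟩
      have h9W : (3 : ℤ) ^ 2 ∣ W ^ 2 :=
        ⟨(B₁ - 3 * t ^ 2) * B₁ * (3 * B₁ - 25 * t ^ 2), by rw [← h]; ring⟩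
      have h3W : (3 : ℤ) ∣ W := (Int.pow_dvd_pow_iff two_ne_zero).mp h9W
      obtain ⟨W₁, rfl⟩ := h3W
      have h' : (B₁ - 3 * t ^ 2) * B₁ * (3 * B₁ - 25 * t ^ 2) = W₁ ^ 2 := by
        have : (9 : ℤ) * ((B₁ - 3 * t ^ 2) * B₁ * (3 * B₁ - 25 * t ^ 2)) = 9 * W₁ ^ 2 := by
          linear_combination h
        exact mul_left_cancel₀ (by norm_num) this
      have hc := congrArg (Int.cast : ℤ → ZMod 3) h'
      push_cast at hc
      exact rb_mod3_obstruction_B _ _ _ (rb_zmod3_ne_zero_of_not_dvd hB₁')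
        (rb_zmod3_ne_zero_of_not_dvd ht) hc
  · rw [padicValInt.eq_zero_of_not_dvd (by exact_mod_cast h3B)]
    exact Even.zero

/-- the integer form of the square class lemma for the second factor -/
theorem rb_isSquare_or_five_of_eq (hcop : IsCoprime p t) (hW : W ≠ 0)
    (h : p * (p + 9 * t ^ 2) * (p - 16 * t ^ 2) = W ^ 2) :
    IsSquare (p + 9 * t ^ 2) ∨ IsSquare (5 * (p + 9 * t ^ 2)) := by
  refine rb_isSquare_or_five_int (rb_B_pos hW h) ?_
  intro ℓ hℓ h5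
  by_cases h3 : ℓ = 3
  · subst h3; exact rb_even_valB_three hcop hW h
  have : Fact ℓ.Prime := ⟨hℓ⟩
  exact rb_even_valB_generic ℓ h3 h5 hcop hW h

end KeyB

/-! ### Reduction of a rational point to the integer form -/

theorem rb_int_form (X Y : ℚ) (h : Y ^ 2 = X * (X + 9) * (X - 16)) (hY : Y ≠ 0) :
    ∃ p t W : ℤ, IsCoprime p t ∧ t ≠ 0 ∧ W ≠ 0 ∧ X = (p : ℚ) / (t : ℚ) ^ 2 ∧
      p * (p + 9 * t ^ 2) * (p - 16 * t ^ 2) = W ^ 2 := by
  set p : ℤ := X.num with hp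
  set q : ℕ := X.den with hq
  have hq0 : (q : ℚ) ≠ 0 := by exact_mod_cast X.den_ne_zero
  have hXpq : X = (p : ℚ) / (q : ℚ) := (Rat.num_div_den X).symm
  have hcopn : Nat.Coprime p.natAbs q := X.reduced
  have hcop : IsCoprime p (q : ℤ) := by
    rw [Int.isCoprime_iff_gcd_eq_one, Int.gcd, Int.natAbs_natCast]
    exact hcopn
  -- the integer equation
  have hN : ((Y * (q : ℚ) ^ 2)) ^ 2 =
      ((p * (q : ℤ) * (p + 9 * (q : ℤ)) * (p - 16 * (q : ℤ)) : ℤ) : ℚ) := by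
    push_cast
    rw [mul_pow, h, hXpq]
    field_simp
  have hsq : IsSquare (p * (q : ℤ) * (p + 9 * (q : ℤ)) * (p - 16 * (q : ℤ))) := by
    rw [← Rat.isSquare_intCast_iff, ← hN]
    exact ⟨Y * (q : ℚ) ^ 2, by ring⟩
  obtain ⟨Z, hZ⟩ := hsq
  have hZ' : (q : ℤ) * (p * (p + 9 * (q : ℤ)) * (p - 16 * (q : ℤ))) = Z ^ 2 := by
    rw [sq, ← hZ]; ring
  have hcop2 : IsCoprime (q : ℤ) (p * (p + 9 * (q : ℤ)) * (p - 16 * (q : ℤ))) := by
    have h1 : IsCoprime (q : ℤ) p := hcop.symm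
    have h2 : IsCoprime (q : ℤ) (p + 9 * (q : ℤ)) := by
      have := h1.add_mul_left_right 9
      simpa [mul_comm] using this
    have h3 : IsCoprime (q : ℤ) (p - 16 * (q : ℤ)) := by
      have := h1.add_mul_left_right (-16)
      simpa [mul_comm, sub_eq_add_neg] using this
    exact (h1.mul_right h2).mul_right h3
  obtain ⟨t, ht⟩ := Int.sq_of_isCoprime hcop2 hZ'
  have hqpos : (0 : ℤ) < (q : ℤ) := by exact_mod_cast X.den_pos
  have hqt : (q : ℤ) = t ^ 2 := by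
    rcases ht with ht | ht
    · exact ht
    · exfalso
      have : (0 : ℤ) ≤ t ^ 2 := sq_nonneg t
      omega
  have ht0 : t ≠ 0 := by
    rintro rfl
    rw [hqt] at hqpos
    norm_num at hqpos
  -- divide by t²
  have htZ : t ∣ Z := by
    have : t ^ 2 ∣ Z ^ 2 := ⟨p * (p + 9 * (q : ℤ)) * (p - 16 * (q : ℤ)), by rw [← hZ', hqt]⟩
    exact (Int.pow_dvd_pow_iff two_ne_zero).mp this
  obtain ⟨W, rfl⟩ := htZ
  have hW : p * (p + 9 * t ^ 2) * (p - 16 * t ^ 2) = W ^ 2 := by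
    have : t ^ 2 * (p * (p + 9 * t ^ 2) * (p - 16 * t ^ 2)) = t ^ 2 * W ^ 2 := by
      rw [hqt] at hZ'
      linear_combination hZ'
    exact mul_left_cancel₀ (pow_ne_zero 2 ht0) this
  have hW0 : W ≠ 0 := by
    rintro rfl
    apply hY
    have : (Y * (q : ℚ) ^ 2) ^ 2 = 0 := by
      rw [hN, hZ]; push_cast; ring
    have h2 : Y * (q : ℚ) ^ 2 = 0 := pow_eq_zero_iff (two_ne_zero) |>.mp this
    rcases mul_eq_zero.mp h2 with h3 | h3
    · exact h3
    · exact absurd (pow_eq_zero_iff (two_ne_zero) |>.mp h3) hq0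
  have hcop3 : IsCoprime p t := by
    have : IsCoprime p (t ^ 2) := by rw [← hqt]; exact hcop
    exact IsCoprime.of_mul_right_left (by rw [sq] at this; exact this)
  have htq : (q : ℚ) = (t : ℚ) ^ 2 := by exact_mod_cast hqt
  exact ⟨p, t, W, hcop3, ht0, hW0, by rw [hXpq, htq], hW⟩

/-- **Square classes for `E : Y² = X(X+9)(X-16)`** (route B, piece B1): for a rational point
with `Y ≠ 0`, `X` is plus or minus a rational square and `X + 9` is a rational square or five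
times one.  (This is the image of the `2`-descent map landing in the group generated by
`(-1, 1)` and `(1, 5)`.) -/
theorem rb_sqclass (X Y : ℚ) (h : Y ^ 2 = X * (X + 9) * (X - 16)) (hY : Y ≠ 0) :
    (IsSquare X ∨ IsSquare (-X)) ∧ (IsSquare (X + 9) ∨ IsSquare (5 * (X + 9))) := by
  obtain ⟨p, t, W, hcop, ht0, hW0, hX, hW⟩ := rb_int_form X Y h hY
  have htQ : (t : ℚ) ≠ 0 := by exact_mod_cast ht0
  constructor
  · rcases rb_isSquare_or_isSquare_neg_of_eq hcop hW0 hW with ⟨a, ha⟩ | ⟨a, ha⟩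
    · left
      refine ⟨(a : ℚ) / (t : ℚ), ?_⟩
      have ha' : (p : ℚ) = (a : ℚ) * (a : ℚ) := by exact_mod_cast ha
      rw [hX]
      field_simp
      linear_combination ha'
    · right
      refine ⟨(a : ℚ) / (t : ℚ), ?_⟩
      have ha' : -(p : ℚ) = (a : ℚ) * (a : ℚ) := by exact_mod_cast ha
      rw [hX]
      field_simp
      linear_combination ha'
  · rcases rb_isSquare_or_five_of_eq hcop hW0 hW with ⟨a, ha⟩ | ⟨a, ha⟩
    · left
      refine ⟨(a : ℚ) / (t : ℚ), ?_⟩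
      have ha' : (p : ℚ) + 9 * (t : ℚ) ^ 2 = (a : ℚ) * (a : ℚ) := by exact_mod_cast ha
      rw [hX]
      field_simp
      linear_combination ha'
    · right
      refine ⟨(a : ℚ) / (t : ℚ), ?_⟩
      have ha' : 5 * ((p : ℚ) + 9 * (t : ℚ) ^ 2) = (a : ℚ) * (a : ℚ) := by exact_mod_cast ha
      rw [hX]
      field_simp
      linear_combination ha'

end Fermat.Agent.S51
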