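import Fermat.Agent.S51.RankB.Defs

/-!
# S51, piece E, route B, part B3: the 2-adic argument

`v₂ = padicValRat 2`.  On `W15 : y² = x (x + 9) (x - 16)`:
* `rb_level_double`: if `v₂ (x P) < 0` then `v₂ (x (2P)) = v₂ (x P) - 2`;
* `rb_four_nsmul`: for every `P`, `4P = 0` or `v₂ (x (4P)) < 0`;
* `rb_claim2`: a point which is `2^k • (4 • S_k)` for every `k` is `0`.
-/

set_option autoImplicit false

namespace Fermat.Agent.S51

open WeierstrassCurve

local notation "v₂" => padicValRat 2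

/-! ### Numerical values -/

lemma rb_v2_two : v₂ (2 : ℚ) = 1 := by
  have := padicValRat.self (p := 2) (by norm_num)
  simpa using this

lemma rb_v2_nat_odd (n : ℕ) (hn : ¬ 2 ∣ n) : v₂ (n : ℚ) = 0 := by
  rw [padicValRat.of_nat, padicValNat.eq_zero_of_not_dvd hn]; rfl

lemma rb_v2_two_pow (k : ℕ) : v₂ ((2 : ℚ) ^ k) = k := by
  rw [padicValRat.pow, rb_v2_two, mul_one]

lemma rb_v2_four : v₂ (4 : ℚ) = 2 := by
  have h : (4 : ℚ) = 2 ^ 2 := by norm_num
  rw [h, rb_v2_two_pow]; rfl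

lemma rb_v2_sixteen : v₂ (16 : ℚ) = 4 := by
  have h : (16 : ℚ) = 2 ^ 4 := by norm_num
  rw [h, rb_v2_two_pow]; rfl

lemma rb_v2_three : v₂ (3 : ℚ) = 0 := by
  have := rb_v2_nat_odd 3 (by norm_num)
  simpa using this

lemma rb_v2_nine : v₂ (9 : ℚ) = 0 := by
  have := rb_v2_nat_odd 9 (by norm_num)
  simpa using this

lemma rb_v2_ten : v₂ (10 : ℚ) = 1 := by
  have h : (10 : ℚ) = 2 * ((5 : ℕ) : ℚ) := by norm_num
  rw [h, padicValRat.mul (by norm_num) (by norm_num), rb_v2_two,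
    rb_v2_nat_odd 5 (by norm_num)]; rfl

lemma rb_v2_144 : v₂ (144 : ℚ) = 4 := by
  have h : (144 : ℚ) = 2 ^ 4 * ((9 : ℕ) : ℚ) := by norm_num
  rw [h, padicValRat.mul (by norm_num) (by norm_num), rb_v2_two_pow,
    rb_v2_nat_odd 9 (by norm_num)]; rfl

/-! ### Squares of 2-adic units are `1 mod 8` -/

lemma rb_odd_num_den (z : ℚ) (hz0 : z ≠ 0) (hz : v₂ z = 0) :
    Odd z.num ∧ Odd (z.den : ℤ) := by
  rw [padicValRat_def] at hz
  have hn0 : z.num ≠ 0 := Rat.num_ne_zero.mpr hz0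
  have hd0 : z.den ≠ 0 := z.den_ne_zero
  have hcop : Nat.Coprime z.num.natAbs z.den := z.reduced
  have key : ¬ ((2 : ℤ) ∣ z.num) ∧ ¬ (2 ∣ z.den) := by
    by_cases h2n : (2 : ℤ) ∣ z.num
    · have h2d : ¬ 2 ∣ z.den := by
        intro h2d
        have h2n' : 2 ∣ z.num.natAbs := by
          have := Int.natAbs_dvd_natAbs.mpr h2n
          simpa using this
        have := Nat.dvd_gcd h2n' h2d
        rw [hcop] at this
        omega
      have hd : padicValNat 2 z.den = 0 := padicValNat.eq_zero_of_not_dvd h2d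
      rw [hd] at hz
      have hn : padicValInt 2 z.num = 0 := by omega
      rcases padicValInt.eq_zero_iff.mp hn with h | h | h
      · omega
      · exact absurd h hn0
      · exact absurd h2n (by exact_mod_cast h)
    · refine ⟨h2n, ?_⟩
      have hn : padicValInt 2 z.num = 0 :=
        padicValInt.eq_zero_of_not_dvd (by exact_mod_cast h2n)
      rw [hn] at hz
      have hd : padicValNat 2 z.den = 0 := by omega
      rcases padicValNat.eq_zero_iff.mp hd with h | h | h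
      · omega
      · exact absurd h hd0
      · exact h
  refine ⟨Int.not_even_iff_odd.mp fun h => key.1 (even_iff_two_dvd.mp h), ?_⟩
  refine Int.not_even_iff_odd.mp fun h => key.2 ?_
  have := even_iff_two_dvd.mp h
  exact_mod_cast this

lemma rb_v2_unit_sq (z : ℚ) (hz0 : z ≠ 0) (hz : v₂ z = 0) :
    z ^ 2 = 1 ∨ 3 ≤ v₂ (z ^ 2 - 1) := by
  obtain ⟨hn, hd⟩ := rb_odd_num_den z hz0 hz
  have h8 : (8 : ℤ) ∣ z.num ^ 2 - (z.den : ℤ) ^ 2 := by
    have h1 := Int.eight_dvd_sq_sub_one_of_odd hn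
    have h2 := Int.eight_dvd_sq_sub_one_of_odd hd
    have := dvd_sub h1 h2
    have e : z.num ^ 2 - 1 - ((z.den : ℤ) ^ 2 - 1) = z.num ^ 2 - (z.den : ℤ) ^ 2 := by ring
    rwa [e] at this
  have hd0 : (z.den : ℚ) ≠ 0 := by exact_mod_cast z.den_ne_zero
  have hzeq : z ^ 2 - 1 = ((z.num ^ 2 - (z.den : ℤ) ^ 2 : ℤ) : ℚ) / ((z.den : ℚ) ^ 2) := by
    rw [eq_div_iff (pow_ne_zero 2 hd0)]
    push_cast
    have : z * (z.den : ℚ) = z.num := Rat.mul_den_eq_num z
    linear_combination (z * (z.den : ℚ) + z.num) * this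
  by_cases h0 : z.num ^ 2 - (z.den : ℤ) ^ 2 = 0
  · left
    rw [h0] at hzeq
    have : z ^ 2 - 1 = 0 := by rw [hzeq]; simp
    linarith
  · right
    have hden : v₂ ((z.den : ℚ) ^ 2) = 0 := by
      rw [padicValRat.pow]
      have : v₂ (z.den : ℚ) = 0 := by
        apply rb_v2_nat_odd
        intro h2
        have : Even (z.den : ℤ) := even_iff_two_dvd.mpr (by exact_mod_cast h2)
        exact (Int.not_even_iff_odd.mpr hd) this
      rw [this, mul_zero]
    have hnum : (3 : ℤ) ≤ v₂ ((z.num ^ 2 - (z.den : ℤ) ^ 2 : ℤ) : ℚ) := by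
      rw [padicValRat.of_int]
      have := (padicValInt_dvd_iff (p := 2) 3 (z.num ^ 2 - (z.den : ℤ) ^ 2)).mp
        (by norm_num; exact h8)
      rcases this with h | h
      · exact absurd h h0
      · exact_mod_cast h
    rw [hzeq, padicValRat.div (by exact_mod_cast h0) (pow_ne_zero 2 hd0), hden, sub_zero]
    exact hnum

/-! ### The local lemma for doubled points -/

lemma rb_v2_sq (q : ℚ) : v₂ (q ^ 2) = 2 * v₂ q := by
  rw [padicValRat.pow]; norm_num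

lemma rb_v2_pow_four (q : ℚ) : v₂ (q ^ 4) = 4 * v₂ q := by
  rw [padicValRat.pow]; norm_num

/-- If `z², z² + 9, z² - 16` are rational squares and `z` is 2-integral, then `4 ∣ z`
2-adically (and the square root of `z² - 16` is also divisible by `4`). -/
lemma rb_local (z t r : ℚ) (ht : t ^ 2 = z ^ 2 + 9) (hr : r ^ 2 = z ^ 2 - 16)
    (hz0 : z ≠ 0) (hr0 : r ≠ 0) (hv : 0 ≤ v₂ z) :
    2 ≤ v₂ z ∧ 2 ≤ v₂ r ∧ 0 ≤ v₂ t := by
  have ht0 : t ≠ 0 := by
    intro h; rw [h] at ht; nlinarith [sq_nonneg z]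
  have hz2 : z ^ 2 ≠ 0 := pow_ne_zero 2 hz0
  have ht2 : t ^ 2 ≠ 0 := pow_ne_zero 2 ht0
  have hr2 : r ^ 2 ≠ 0 := pow_ne_zero 2 hr0
  -- (a) `t` is 2-integral
  have hvt : 0 ≤ v₂ t := by
    have h1 : min (v₂ (z ^ 2)) (v₂ (9 : ℚ)) ≤ v₂ (z ^ 2 + 9) :=
      padicValRat.min_le_padicValRat_add (by rw [← ht]; exact ht2)
    rw [← ht, rb_v2_sq, rb_v2_sq, rb_v2_nine] at h1
    have : 0 ≤ min (2 * v₂ z) 0 := le_min (by omega) le_rfl
    omega
  -- (b) `z` is not a unit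
  have hne0 : v₂ z ≠ 0 := by
    intro h0
    have h10 : t ^ 2 = (z ^ 2 - 1) + 10 := by rw [ht]; ring
    rcases rb_v2_unit_sq z hz0 h0 with h1 | h3
    · have h : t ^ 2 = 10 := by rw [h10, h1]; norm_num
      have hv' := congrArg (padicValRat 2) h
      rw [rb_v2_sq, rb_v2_ten] at hv'
      omega
    · have hne : z ^ 2 - 1 ≠ 0 := by
        intro h; rw [h] at h3; simp at h3
      have hv' : v₂ ((10 : ℚ) + (z ^ 2 - 1)) = v₂ (10 : ℚ) :=
        padicValRat.add_eq_of_lt (by rw [add_comm, ← h10]; exact ht2) (by norm_num) hne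
          (by rw [rb_v2_ten]; omega)
      rw [add_comm, ← h10, rb_v2_sq, rb_v2_ten] at hv'
      omega
  -- (c) `z / 2` is not a unit
  have hne1 : v₂ z ≠ 1 := by
    intro h1
    have hz10 : z / 2 ≠ 0 := div_ne_zero hz0 (by norm_num)
    have hr10 : r / 2 ≠ 0 := div_ne_zero hr0 (by norm_num)
    have hvz1 : v₂ (z / 2) = 0 := by
      rw [padicValRat.div hz0 (by norm_num), rb_v2_two, h1]; norm_num
    have hrel : (r / 2) ^ 2 = (z / 2) ^ 2 - 4 := by
      rw [div_pow, div_pow, hr]; ring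
    have hvr1 : v₂ (r / 2) = 0 := by
      have hv' : v₂ ((z / 2) ^ 2 + (-4 : ℚ)) = v₂ ((z / 2) ^ 2) :=
        padicValRat.add_eq_of_lt (by rw [← sub_eq_add_neg, ← hrel]; exact pow_ne_zero 2 hr10)
          (pow_ne_zero 2 hz10) (by norm_num)
          (by rw [padicValRat.neg, rb_v2_four, rb_v2_sq, hvz1]; norm_num)
      rw [← sub_eq_add_neg, ← hrel, rb_v2_sq, rb_v2_sq, hvz1] at hv'
      omega
    have hrel' : (r / 2) ^ 2 - 1 = ((z / 2) ^ 2 - 1) + (-4) := by rw [hrel]; ring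
    rcases rb_v2_unit_sq (z / 2) hz10 hvz1 with hz | hz
    · have h : (r / 2) ^ 2 = -3 := by rw [hrel, hz]; norm_num
      nlinarith [sq_nonneg (r / 2)]
    · rcases rb_v2_unit_sq (r / 2) hr10 hvr1 with hr' | hr'
      · have h : (z / 2) ^ 2 - 1 = 4 := by linarith [hrel', hr']
        rw [h, rb_v2_four] at hz
        omega
      · have hne : (z / 2) ^ 2 - 1 ≠ 0 := by
          intro h; rw [h] at hz; simp at hz
        have hne' : (r / 2) ^ 2 - 1 ≠ 0 := by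
          intro h; rw [h] at hr'; simp at hr'
        have hv' : v₂ ((-4 : ℚ) + ((z / 2) ^ 2 - 1)) = v₂ (-4 : ℚ) :=
          padicValRat.add_eq_of_lt (by rw [add_comm, ← hrel']; exact hne') (by norm_num) hne
            (by rw [padicValRat.neg, rb_v2_four]; omega)
        rw [add_comm, ← hrel', padicValRat.neg, rb_v2_four] at hv'
        omega
  have hz2' : 2 ≤ v₂ z := by omega
  refine ⟨hz2', ?_, hvt⟩
  have h1 : min (v₂ (z ^ 2)) (v₂ (-16 : ℚ)) ≤ v₂ (z ^ 2 + (-16)) :=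
    padicValRat.min_le_padicValRat_add (by rw [← sub_eq_add_neg, ← hr]; exact hr2)
  rw [← sub_eq_add_neg, ← hr, rb_v2_sq, rb_v2_sq, padicValRat.neg, rb_v2_sixteen] at h1
  have : 4 ≤ min (2 * v₂ z) 4 := le_min (by omega) le_rfl
  omega

/-! ### (i) doubling lowers the level by 2 -/

theorem rb_level_double {X Y : ℚ} (h : W15.toAffine.Nonsingular X Y) (hv : v₂ X < 0) :
    ∃ (X' Y' : ℚ) (h' : W15.toAffine.Nonsingular X' Y'),
      (2 : ℕ) • (Affine.Point.some X Y h : G15) = Affine.Point.some X' Y' h' ∧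
        v₂ X' = v₂ X - 2 := by
  have heq := rb_eq_of_nonsingular h
  have hX0 : X ≠ 0 := by rintro rfl; simp at hv
  have hX9 : X + 9 ≠ 0 := by
    intro h9
    have : X = -9 := by linarith
    rw [this, padicValRat.neg, rb_v2_nine] at hv; omega
  have hX16 : X - 16 ≠ 0 := by
    intro h16
    have : X = 16 := by linarith
    rw [this, rb_v2_sixteen] at hv; omega
  have hY2 : Y ^ 2 ≠ 0 := by rw [heq]; exact mul_ne_zero (mul_ne_zero hX0 hX9) hX16
  have hY : Y ≠ 0 := fun h => hY2 (by rw [h]; ring)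
  obtain ⟨X', Y', h', e, hX'⟩ := rb_two_nsmul_of_ne h hY
  refine ⟨X', Y', h', e, ?_⟩
  have hv9 : v₂ (X + 9) = v₂ X :=
    padicValRat.add_eq_of_lt hX9 hX0 (by norm_num) (by rw [rb_v2_nine]; exact hv)
  have hv16 : v₂ (X - 16) = v₂ X := by
    rw [sub_eq_add_neg]
    exact padicValRat.add_eq_of_lt (by rwa [← sub_eq_add_neg]) hX0 (by norm_num)
      (by rw [padicValRat.neg, rb_v2_sixteen]; omega)
  have hvY2 : v₂ (Y ^ 2) = 3 * v₂ X := by
    rw [heq, padicValRat.mul (mul_ne_zero hX0 hX9) hX16, padicValRat.mul hX0 hX9, hv9, hv16]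
    ring
  have hN0 : X ^ 2 + 144 ≠ 0 := by positivity
  have hvN : v₂ (X ^ 2 + 144) = 2 * v₂ X := by
    rw [padicValRat.add_eq_of_lt hN0 (pow_ne_zero 2 hX0) (by norm_num)
      (by rw [rb_v2_sq, rb_v2_144]; omega), rb_v2_sq]
  rw [hX', padicValRat.div (pow_ne_zero 2 hN0) (mul_ne_zero (by norm_num) hY2), rb_v2_sq, hvN,
    padicValRat.mul (by norm_num) hY2, rb_v2_four, hvY2]
  ring

/-! ### (ii) `4P` is `0` or of negative level -/

theorem rb_four_nsmul (P : G15) :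
    (4 : ℕ) • P = 0 ∨ ∃ (X Y : ℚ) (h : W15.toAffine.Nonsingular X Y),
      (4 : ℕ) • P = Affine.Point.some X Y h ∧ v₂ X < 0 := by
  have h4 : (4 : ℕ) • P = (2 : ℕ) • ((2 : ℕ) • P) := by rw [← mul_nsmul]
  rcases P with _ | ⟨x, y, h⟩
  · left
    exact nsmul_zero _
  have heq := rb_eq_of_nonsingular h
  by_cases hy : y = 0
  · left
    rw [h4, (rb_two_nsmul_eq_zero_iff h).mpr hy]
    exact nsmul_zero _
  obtain ⟨x', y', h', e, hx'⟩ := rb_two_nsmul_of_ne h hy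
  have heq' := rb_eq_of_nonsingular h'
  rw [h4, e]
  by_cases hy' : y' = 0
  · left
    exact (rb_two_nsmul_eq_zero_iff h').mpr hy'
  right
  by_cases hv : v₂ x' < 0
  · obtain ⟨X, Y, hXY, e2, hv2⟩ := rb_level_double h' hv
    exact ⟨X, Y, hXY, e2, by omega⟩
  rw [not_lt] at hv
  -- the doubled point has `x' = z²`, `x' + 9 = t²`, `x' - 16 = r²`
  have h2y : 2 * y ≠ 0 := mul_ne_zero (by norm_num) hy
  set z : ℚ := (x ^ 2 + 144) / (2 * y) with hz
  set t : ℚ := (x ^ 2 + 18 * x - 144) / (2 * y) with ht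
  set r : ℚ := (x ^ 2 - 32 * x - 144) / (2 * y) with hr
  have hxz : x' = z ^ 2 := by
    rw [hx', hz, div_pow]; congr 1; ring
  have htz : t ^ 2 = z ^ 2 + 9 := by
    rw [ht, hz, div_pow, div_pow, div_add' _ _ _ (pow_ne_zero 2 h2y)]
    congr 1
    linear_combination (-36 : ℚ) * heq
  have hrz : r ^ 2 = z ^ 2 - 16 := by
    rw [hr, hz, div_pow, div_pow, div_sub' (pow_ne_zero 2 h2y)]
    congr 1
    linear_combination (64 : ℚ) * heq
  have hy'2 : y' ^ 2 = z ^ 2 * t ^ 2 * r ^ 2 := by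
    rw [heq', htz, hrz, hxz]
  have hy'2_ne : y' ^ 2 ≠ 0 := pow_ne_zero 2 hy'
  have hz0 : z ≠ 0 := by
    intro h0; rw [h0] at hy'2; apply hy'2_ne; rw [hy'2]; ring
  have hr0 : r ≠ 0 := by
    intro h0; rw [h0] at hy'2; apply hy'2_ne; rw [hy'2]; ring
  have ht0 : t ≠ 0 := by
    intro h0; rw [h0] at hy'2; apply hy'2_ne; rw [hy'2]; ring
  have hvz : 0 ≤ v₂ z := by
    rw [hxz, rb_v2_sq] at hv; omega
  obtain ⟨hz2, hr2, ht2⟩ := rb_local z t r htz hrz hz0 hr0 hvz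
  obtain ⟨X, Y, hXY, e2, hX⟩ := rb_two_nsmul_of_ne h' hy'
  refine ⟨X, Y, hXY, e2, ?_⟩
  have hN0 : x' ^ 2 + 144 ≠ 0 := by positivity
  have hvN : v₂ (x' ^ 2 + 144) = 4 := by
    rw [add_comm, padicValRat.add_eq_of_lt (by rwa [add_comm]) (by norm_num)
      (pow_ne_zero 2 (by rw [hxz]; exact pow_ne_zero 2 hz0))
      (by rw [rb_v2_144, hxz, rb_v2_sq, rb_v2_sq]; omega), rb_v2_144]
  have hvY : v₂ (y' ^ 2) = 2 * v₂ z + 2 * v₂ t + 2 * v₂ r := by
    rw [hy'2, padicValRat.mul (mul_ne_zero (pow_ne_zero 2 hz0) (pow_ne_zero 2 ht0))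
      (pow_ne_zero 2 hr0), padicValRat.mul (pow_ne_zero 2 hz0) (pow_ne_zero 2 ht0),
      rb_v2_sq, rb_v2_sq, rb_v2_sq]
  rw [hX, padicValRat.div (pow_ne_zero 2 hN0) (mul_ne_zero (by norm_num) hy'2_ne), rb_v2_sq, hvN,
    padicValRat.mul (by norm_num) hy'2_ne, rb_v2_four, hvY]
  omega

/-! ### (iii) infinitely 2-divisible multiples of 4 vanish -/

lemma rb_level_iterate (k : ℕ) : ∀ {X Y : ℚ} (h : W15.toAffine.Nonsingular X Y), v₂ X < 0 →
    ∃ (X' Y' : ℚ) (h' : W15.toAffine.Nonsingular X' Y'),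
      (2 ^ k : ℕ) • (Affine.Point.some X Y h : G15) = Affine.Point.some X' Y' h' ∧
        v₂ X' = v₂ X - 2 * k := by
  induction k with
  | zero =>
    intro X Y h _
    exact ⟨X, Y, h, by simp, by simp⟩
  | succ k ih =>
    intro X Y h hv
    obtain ⟨X1, Y1, h1, e1, hv1⟩ := rb_level_double h hv
    obtain ⟨X2, Y2, h2, e2, hv2⟩ := ih h1 (by omega)
    refine ⟨X2, Y2, h2, ?_, ?_⟩
    · rw [pow_succ, mul_comm, mul_nsmul, e1, e2]
    · rw [hv2, hv1]; push_cast; ring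

theorem rb_claim2 (R : G15) (hR : ∀ k : ℕ, ∃ S : G15, R = (2 ^ k : ℕ) • ((4 : ℕ) • S)) :
    R = 0 := by
  rcases R with _ | ⟨x, y, h⟩
  · rfl
  exfalso
  obtain ⟨S, hS⟩ := hR (v₂ x).natAbs
  rcases rb_four_nsmul S with h0 | ⟨X, Y, hXY, e, hv⟩
  · rw [h0, nsmul_zero] at hS
    exact Affine.Point.some_ne_zero _ hS
  · obtain ⟨X', Y', h', e', hv'⟩ := rb_level_iterate (v₂ x).natAbs hXY hv
    rw [e, e'] at hS
    have hx : x = X' := by
      injection hS
    rw [← hx] at hv'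
    omega

end Fermat.Agent.S51
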